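import Fermat.Agent.ML.Hard.Mono.Pkg

/-!
# ML / Hard / Mono / Core : assembly of `Hard.MidData` from the per-prime packages

* `oldS`, `oldH` : the odd soft / hard primes raised before (static);
* `GenNew` : (GEN) with the variables `yn` of the new prime, as a function of the set `Rs` of the OLD primes with variables;
* `midData_of` : `MidData` from `TwoRec`, `GenNew`, and the data `(yn, c, Pc0, emb, out)` of the new prime.
-/

set_option autoImplicit false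
set_option linter.unusedSectionVars false

noncomputable section

open AlgebraicCurve ModularCurve

namespace Fermat.Agent.ML.Hard.Mono

open Matrix Fermat.Agent.RIB Fermat.Agent.ML Fermat.Agent.S56 Fermat.Agent.S56.Gen ExtCitation
  Fermat.Agent.ML.ESide Fermat.Agent.ML.Lift Fermat.Agent.ML.Raise Fermat.Agent.ML.StepGen
  Fermat.Agent.ML.TWFree
open CFT (decomp)

local notation "Qbar" => AlgebraicClosure ℚ
local notation "GQ" => (AlgebraicClosure ℚ ≃ₐ[ℚ] AlgebraicClosure ℚ)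
local notation "M₂" => Matrix (Fin 2) (Fin 2)

/-- the prime `2`. -/
abbrev tP : Nat.Primes := ⟨2, Nat.prime_two⟩

open Classical in
/-- the odd hard primes raised before. -/
def oldH (T P : Finset ℕ) {p : ℕ} (rbar0 : GQ →* M₂ (ZMod p)) : Finset Nat.Primes :=
  (toP T).filter fun v => (v : ℕ) ∈ P ∧ (v : ℕ) ≠ 2 ∧ FrobScalar rbar0 (v : ℕ)

open Classical in
/-- the odd soft primes raised before. -/
def oldS (T P : Finset ℕ) {p : ℕ} (rbar0 : GQ →* M₂ (ZMod p)) : Finset Nat.Primes :=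
  (toP T).filter fun v => (v : ℕ) ∈ P ∧ (v : ℕ) ≠ 2 ∧ ¬ FrobScalar rbar0 (v : ℕ)

theorem mem_oldH {T P : Finset ℕ} {p : ℕ} {rbar0 : GQ →* M₂ (ZMod p)} {v : Nat.Primes} :
    v ∈ oldH T P rbar0 ↔ v ∈ toP T ∧ (v : ℕ) ∈ P ∧ (v : ℕ) ≠ 2 ∧ FrobScalar rbar0 (v : ℕ) := by
  classical
  rw [oldH, Finset.mem_filter]

theorem mem_oldS {T P : Finset ℕ} {p : ℕ} {rbar0 : GQ →* M₂ (ZMod p)} {v : Nat.Primes} :
    v ∈ oldS T P rbar0 ↔ v ∈ toP T ∧ (v : ℕ) ∈ P ∧ (v : ℕ) ≠ 2 ∧ ¬ FrobScalar rbar0 (v : ℕ) := by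
  classical
  rw [oldS, Finset.mem_filter]

/-- (GEN) with the variables `yn` of the new prime. -/
def GenNew (p : ℕ) [Fact p.Prime] (T : Finset ℕ) (rbar0 : GQ →* M₂ (ZMod p)) (P : Finset ℕ)
    (t : ℕ) {R : Type} [CommRing R] (π0 : R →+* ZMod p) (ρ : GQ →* M₂ R) (J : Ideal R) (wn : ℕ)
    (yn : Fin wn → R) : Prop :=
  ∀ (Rs : Finset Nat.Primes) (w : Nat.Primes → ℕ), Rs ⊆ toP T → pPrime p ∉ Rs →
    (∀ v ∈ Rs, (v : ℕ) ∈ P ∨ (v : ℕ) = 2) →
    (∀ v ∈ Rs, Nat.card ↥(B1loc (adRep (mapK (kM p) rbar0)) v) * Nat.card (kM p) ^ w v ≤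
      Nat.card (kM p) ^ 3) →
    (∀ v ∈ toP T, v ∉ Rs → v ≠ pPrime p → (v : ℕ) ∈ P → Ram rbar0 (v : ℕ)) →
    ∀ I : Ideal R, (∀ a ∈ I, π0 a = 0) →
    (∀ v ∈ Rs, ∃ M : M₂ R, IsUnit (M.map π0) ∧ ∀ σ ∈ decomp v, ConjConst ℤ (J ⊔ I) M (ρ σ)) →
    (∀ j, yn j ∈ I) →
    ∃ (g : ℕ) (x : Fin g → R), ∑ v ∈ Rs, w v + wn + g ≤ t ∧ (∀ i, π0 (x i) = 0) ∧
      RingHom.ker π0 ≤ J ⊔ I ⊔ Ideal.span (Set.range x) ⊔ Ideal.span {(p : R)}

theorem not_pow_dvd_mono {p : ℕ} {k f : ℕ} (h : k ≤ f) {n : ℤ} (hn : ¬ (p : ℤ) ^ (k + 1) ∣ n) :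
    ¬ (p : ℤ) ^ (f + 1) ∣ n :=
  fun hd => hn ((pow_dvd_pow _ (Nat.succ_le_succ h)).trans hd)

section Frame

variable {W : WeierstrassCurve ℤ} {p : ℕ} [Fact p.Prime] {T : Finset ℕ}
  {b : Module.Basis (Fin 2) (ZMod p) (TorsW W p)} {L₀ : ℕ} [NeZero L₀] {eps : ℕ → ℤ}
  {eP : GQ → ℤ} (X : LCtx W p T b L₀ eps eP) {P : Finset ℕ} {q : ℕ}
  (hP : P ⊆ Pfin W (rbarB b) L₀) (hq : q ∈ Pfin W (rbarB b) L₀) (hqP : q ∉ P) (hq2 : q ≠ 2)
  {t a m n K : ℕ} {qv : Fin t → Nat.Primes}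
  (hF : Frm p X.C.hp2 T W.apOfModel (rbarB b) t 0 0 a m n K qv)
  {Lc Lc' : ℕ} [NeZero Lc] [NeZero Lc'] [NeZero q] (hLc : Lc = cellLevel L₀ P) (hL : Lc' = Lc * q)
  {G : AddSubgroup (JZero (lvl Lc (extP qv) t))}
  (hG : IsCell p T W.apOfModel (rbarB b) eps eP Lc qv a P G)
  {V : AddSubgroup (JZero (lvl Lc' (extP qv) t))}
  {B : Module.Basis (Fin 2) (ZMod (p ^ (K + 1))) (TorsW W (p ^ (K + 1)))}
  (C : TopCtx W p b K B (lvl Lc' (extP qv) t) V)
  {R : Type} [CommRing R] [IsLocalRing R] [Finite R] [Algebra (ZMod (p ^ (K + 1))) R]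
  [Module R ↥V]
  {πE : R →ₐ[ZMod (p ^ (K + 1))] ZMod (p ^ (K + 1))} {ρ : GQ →* M₂ R}
  {Φ : M₂ R →ₐ[R] Module.End R ↥V}
  (H : Rho.IsRhoK (lvl Lc' (extP qv) t) (p ^ (K + 1)) V (rEB B) πE ρ Φ)
  (Gt : Submodule R ↥V)
  (hGt : ∀ x : ↥V, x ∈ Gt ↔
    ∃ v ∈ G, upE (lvl_mul_q hL qv) 0 v = (x : JZero (lvl Lc' (extP qv) t)))

include X hP hq hqP hq2 hF hLc hG C H hGt in
/-- `GenNew` for a new prime `q ≠ p` of weight `wn`. -/
theorem genNew_of (hpP : p ∉ P) (hqp : q ≠ p) (hG0 : G ≠ ⊥)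
    (hGV : ∀ v ∈ G, upE (lvl_mul_q hL qv) 0 v ∈ V) (wn : ℕ) (yn : Fin wn → R)
    (hwq : Nat.card ↥(B1loc (adRep (mapK (kM p) (rbarB b)))
          (⟨q, X.prime_of_mem_Pfin hq⟩ : Nat.Primes)) * Nat.card (kM p) ^ wn ≤
        Nat.card (kM p) ^ 3)
    (hsq : ∀ I : Ideal R, (∀ j, yn j ∈ I) → ∃ M : M₂ R, IsUnit (M.map (pi0 πE)) ∧
        ∀ σ ∈ decomp (⟨q, X.prime_of_mem_Pfin hq⟩ : Nat.Primes),
          ConjConst ℤ (Gt.annihilator ⊔ I) M (ρ σ)) :
    GenNew p T (rbarB b) P t (pi0 πE) ρ Gt.annihilator wn yn := by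
  classical
  intro Rs w hRsT hpR hRsP hw hRs I hI hstrict hyn
  set qP : Nat.Primes := ⟨q, X.prime_of_mem_Pfin hq⟩ with hqPdef
  have hqR : qP ∉ Rs := fun h => by
    rcases hRsP qP h with h | h
    · exact hqP h
    · exact hq2 h
  have hqT : qP ∈ toP T :=
    mem_toP'.2 (X.hbadT q (X.prime_of_mem_Pfin hq) (X.dvd_of_mem_Pfin hq))
  have Hgen := genHyp_frame X hP hq hqP hq2 hF hLc hL hG C H Gt hGt hpP hG0 hGV (insert qP Rs)
    (fun v hv hvR hvp hvP => hRs v hv (fun h => hvR (Finset.mem_insert_of_mem h)) hvp hvP) I hI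
    (fun v hv => by
      rcases Finset.mem_insert.1 hv with rfl | hv
      · exact hsq I hyn
      · exact hstrict v hv)
  obtain ⟨hle, x, hx0, -, hgen⟩ := X.C.gen_stage hF.gen
    (Finset.insert_subset hqT hRsT)
    (fun h => by
      rcases Finset.mem_insert.1 h with h | h
      · exact hqp (congrArg Subtype.val h).symm
      · exact hpR h)
    (fun v => if v = qP then wn else w v)
    (fun v hv => by
      rcases Finset.mem_insert.1 hv with rfl | hv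
      · rw [if_pos rfl]; exact hwq
      · rw [if_neg (fun e : v = qP => hqR (e ▸ hv))]; exact hw v hv) Hgen
  have hsum : ∑ v ∈ insert qP Rs, (if v = qP then wn else w v) = wn + ∑ v ∈ Rs, w v := by
    rw [Finset.sum_insert hqR, if_pos rfl]
    congr 1
    exact Finset.sum_congr rfl fun v hv => if_neg (fun e : v = qP => hqR (e ▸ hv))
  rw [hsum] at hle
  refine ⟨_, x, ?_, hx0, hgen (isNilpotent_ker H)⟩
  rw [hsum]
  omega

include X hP hq hqP hq2 hF hLc hG C H hGt in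
/-- **assembly of `MidData`.** -/
theorem midData_of (hpP : p ∉ P) {f2 : ℕ} {β2 : R}
    (h2R : TwoRec p (rbarB b) (eps 2) P V (pi0 πE) ρ Gt f2 β2)
    (U : AddSubgroup (JZero (lvl Lc (extP qv) t))) (U' : AddSubgroup (JZero (lvl Lc' (extP qv) t)))
    (wn : ℕ) (yn : Fin wn → R) (hyn : ∀ j, pi0 πE (yn j) = 0)
    (hgn : GenNew p T (rbarB b) P t (pi0 πE) ρ Gt.annihilator wn yn)
    (c : R) (Pc0 : MvPolynomial (Fin wn) ℤ) (hc : c - MvPolynomial.aeval yn Pc0 ∈ Gt.annihilator)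
    (hxc : MvPolynomial.aeval (fun _ : Fin wn => (0 : ℤ)) Pc0 = 0) (ε : ℤ)
    (emb : ∀ v ∈ U, ∀ hv : upE (lvl_mul_q hL qv) 0 v ∈ V,
      c • (⟨upE (lvl_mul_q hL qv) 0 v, hv⟩ : ↥V) = 0 →
      ∀ k, dnE (lvl_mul_q hL qv) k
        (upE (lvl_mul_q hL qv) 0 v - ε • upE (lvl_mul_q hL qv) 1 v) = 0)
    (outq : ∀ G' : AddSubgroup (JZero (lvl Lc' (extP qv) t)), G' ≤ U' → q ≠ p →
      LocSt q (eps q) (G' : Set (JZero (lvl Lc' (extP qv) t))) ∧
        LocUnip q (G' : Set (JZero (lvl Lc' (extP qv) t)))) :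
    ∃ (Hr σ : Type) (_ : Fintype Hr) (_ : Fintype σ) (D : Hr → ℤ) (val : PV Hr σ → R)
      (pt : σ → ℤ) (β' : R) (Pc Pβ : MvPolynomial (PV Hr σ) ℤ),
      MidData p (rbarB b) eps P q
        (f2 + (oldH T P (rbarB b)).card + (f2 + (oldS T P (rbarB b)).card)) t (lvl_mul_q hL qv)
        U V U' (pi0 πE) Gt ε Hr σ D val pt c β' Pc Pβ := by
  classical
  set Hs := oldH T P (rbarB b) with hHs
  set S0 := oldS T P (rbarB b) with hS0
  have hS : ∀ v : Nat.Primes, ∃ u : R, v ∈ S0 →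
      (PkgOne p (pi0 πE) ρ Gt v u u Polynomial.X (p : ℤ) 1 ∧
      Nat.card ↥(B1loc (adRep (mapK (kM p) (rbarB b))) v) * Nat.card (kM p) ^ 1 ≤
        Nat.card (kM p) ^ 3 ∧
      ∀ β' : R, u ∣ β' → ∀ G' : Set (JZero (lvl Lc' (extP qv) t)),
        (∀ x ∈ G', ∃ x₁ : ↥V, ((β' • x₁ : ↥V) : JZero (lvl Lc' (extP qv) t)) = x) →
        LocSt (v : ℕ) (eps v) G' ∧ LocUnip (v : ℕ) G') := fun v => by
    by_cases hv : v ∈ S0
    · obtain ⟨-, h1, h2, h3⟩ := mem_oldS.1 hv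
      obtain ⟨u, hu⟩ := exists_old_soft X hP hq hqP hq2 hF hLc hL hG C H Gt hGt hpP v h1 h2 h3
      exact ⟨u, fun _ => hu⟩
    · exact ⟨0, fun h => absurd h hv⟩
  choose uS huS using hS
  have hHd : ∀ v : Nat.Primes, ∃ (x : Fin 6 → R) (D : ℤ), v ∈ Hs →
      (PkgHard p (pi0 πE) ρ Gt v x D ∧
      Nat.card ↥(B1loc (adRep (mapK (kM p) (rbarB b))) v) * Nat.card (kM p) ^ 3 ≤
        Nat.card (kM p) ^ 3 ∧
      ∀ β' : R, x 0 ∣ β' → ∀ G' : Set (JZero (lvl Lc' (extP qv) t)),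
        (∀ x ∈ G', ∃ x₁ : ↥V, ((β' • x₁ : ↥V) : JZero (lvl Lc' (extP qv) t)) = x) →
        LocSt (v : ℕ) (eps v) G' ∧ LocUnip (v : ℕ) G') := fun v => by
    by_cases hv : v ∈ Hs
    · obtain ⟨-, h1, h2, h3⟩ := mem_oldH.1 hv
      obtain ⟨x, D, hx⟩ := exists_old_hard X hP hq hqP hq2 hF hLc hL hG C H Gt hGt hpP v h1 h2 h3
      exact ⟨x, D, fun _ => hx⟩
    · exact ⟨0, 0, fun h => absurd h hv⟩
  choose xv Dv hxv using hHd
  have key : ∀ (R1 : Finset Nat.Primes) (u be : Nat.Primes → R) (P1 : Nat.Primes → Polynomial ℤ)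
      (ptv : Nat.Primes → ℤ) (f : Nat.Primes → ℕ) (be0 : R) (N0 : ℤ) (f0 : ℕ), R1 ⊆ toP T →
      (∀ v ∈ R1, v ∈ S0 ∨ v = tP) → S0 ⊆ R1 → (∀ v ∈ S0, be v = uS v) →
      (∀ v ∈ R1, PkgOne p (pi0 πE) ρ Gt v (u v) (be v) (P1 v) (ptv v) (f v)) →
      (∀ v ∈ R1, Nat.card ↥(B1loc (adRep (mapK (kM p) (rbarB b))) v) * Nat.card (kM p) ^ 1 ≤
        Nat.card (kM p) ^ 3) → (tP ∉ R1 → 2 ∉ P) → be0 - (N0 : R) ∈ Gt.annihilator →
      ¬ (p : ℤ) ^ (f0 + 1) ∣ N0 → β2 ∣ be0 * ∏ v ∈ R1, be v →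
      f0 + ∑ v ∈ R1, f v ≤ f2 + (f2 + S0.card) →
      ∃ (Hr σ : Type) (_ : Fintype Hr) (_ : Fintype σ) (D : Hr → ℤ) (val : PV Hr σ → R)
        (pt : σ → ℤ) (β' : R) (Pc Pβ : MvPolynomial (PV Hr σ) ℤ),
        MidData p (rbarB b) eps P q (f2 + Hs.card + (f2 + S0.card)) t (lvl_mul_q hL qv)
          U V U' (pi0 πE) Gt ε Hr σ D val pt c β' Pc Pβ := by
    intro R1 u be P1 ptv f be0 N0 f0 hR1T hR1 hSR hbe pkg1 hw1 h2P hbe0 hN0 hβ2 hf
    have hdisj : Disjoint R1 Hs := by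
      rw [Finset.disjoint_left]
      intro v hv hvH
      obtain ⟨-, -, h2, h3⟩ := mem_oldH.1 hvH
      rcases hR1 v hv with h | h
      · exact (mem_oldS.1 h).2.2.2 h3
      · exact h2 (congrArg Subtype.val h)
    obtain ⟨σ, iσ, val, pt, Pc, Pβ, h1, h2, h3, h4, h5, h6, h7, h8, h9⟩ :=
      mid_abs_F (t := t) Gt R1 Hs u be P1 ptv f pkg1 xv Dv (fun v hv => (hxv v hv).1) be0 N0 f0
        hbe0 hN0 wn yn hyn (by
          intro I hI hu hx hy
          obtain ⟨g, x, hg, hx0, hle⟩ := hgn (R1 ∪ Hs) (fun v => if v ∈ Hs then 3 else 1)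
            (Finset.union_subset hR1T (Finset.filter_subset _ _))
            (fun h => by
              rcases Finset.mem_union.1 h with h | h
              · rcases hR1 _ h with h | h
                · exact hpP (mem_oldS.1 h).2.1
                · exact X.C.hp2 (congrArg Subtype.val h)
              · exact hpP (mem_oldH.1 h).2.1)
            (fun v hv => by
              rcases Finset.mem_union.1 hv with h | h
              · rcases hR1 _ h with h | h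
                · exact Or.inl (mem_oldS.1 h).2.1
                · exact Or.inr (congrArg Subtype.val h)
              · exact Or.inl (mem_oldH.1 h).2.1)
            (fun v hv => by
              by_cases hvH : v ∈ Hs
              · rw [if_pos hvH]; exact (hxv v hvH).2.1
              · rw [if_neg hvH]
                exact hw1 v ((Finset.mem_union.1 hv).resolve_right hvH))
            (fun v hvT hvR hvp hvP => by
              exfalso
              rw [Finset.mem_union, not_or] at hvR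
              by_cases hv2 : (v : ℕ) = 2
              · have e : v = tP := Subtype.ext hv2
                exact h2P (e ▸ hvR.1) (hv2 ▸ hvP)
              · by_cases hs : FrobScalar (rbarB b) (v : ℕ)
                · exact hvR.2 (mem_oldH.2 ⟨hvT, hvP, hv2, hs⟩)
                · exact hvR.1 (hSR (mem_oldS.2 ⟨hvT, hvP, hv2, hs⟩)))
            I hI
            (fun v hv => by
              rcases Finset.mem_union.1 hv with h | h
              · exact (pkg1 v h).strict I (hu v h)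
              · exact (hxv v h).1.strict I (hx v h))
            hy
          refine ⟨g, x, ?_, hx0, hle⟩
          have hsum : ∑ v ∈ R1 ∪ Hs, (if v ∈ Hs then 3 else 1) = R1.card + 3 * Hs.card := by
            rw [Finset.sum_union hdisj,
              Finset.sum_congr rfl (fun v hv => if_neg (Finset.disjoint_left.1 hdisj hv)),
              Finset.sum_congr (s₁ := Hs) rfl (fun v hv => if_pos hv), Finset.sum_const,
              Finset.sum_const, smul_eq_mul, smul_eq_mul, mul_one, mul_comm]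
          rw [hsum] at hg
          exact hg) c Pc0 hc hxc
    have hβ2' : β2 ∣ be0 * (∏ v ∈ Hs, xv v 0) * ∏ v ∈ R1, be v := by
      have := hβ2.mul_right (∏ v ∈ Hs, xv v 0)
      have e : be0 * (∏ v ∈ Hs, xv v 0) * ∏ v ∈ R1, be v =
          be0 * (∏ v ∈ R1, be v) * ∏ v ∈ Hs, xv v 0 := by ring
      rwa [e]
    refine ⟨↥Hs, σ, inferInstance, iσ, fun r => Dv r, val, pt,
      be0 * (∏ v ∈ Hs, xv v 0) * ∏ v ∈ R1, be v, Pc, Pβ,
      ⟨h1, h2, h3, h4, h5, h6, h7, h8, not_pow_dvd_mono (by omega) h9, emb, ?_⟩⟩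
    intro G' _ hle hout
    have hout' : ∀ x ∈ (G' : Set (JZero (lvl Lc' (extP qv) t))), ∃ x₁ : ↥V,
        (((be0 * (∏ v ∈ Hs, xv v 0) * ∏ v ∈ R1, be v) • x₁ : ↥V) :
          JZero (lvl Lc' (extP qv) t)) = x := fun x hx => by
      obtain ⟨x₁, -, h⟩ := hout x hx
      exact ⟨x₁, h⟩
    have h2o := h2R.out _ hβ2' (G' : Set (JZero (lvl Lc' (extP qv) t))) hout'
    refine ⟨fun q' hq' hq'p => ?_, fun h hr => h2o.2.1 (fun h' => h (Finset.mem_insert_of_mem h')) hr,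
      h2o.2.2⟩
    rcases Finset.mem_insert.1 hq' with rfl | hq'P
    · exact outq G' hle hq'p
    by_cases hq'2 : q' = 2
    · subst hq'2
      exact h2o.1 hq'P
    have hq'pr := X.prime_of_mem_Pfin (hP hq'P)
    have hq'T : (⟨q', hq'pr⟩ : Nat.Primes) ∈ toP T :=
      mem_toP'.2 (X.hbadT q' hq'pr (X.dvd_of_mem_Pfin (hP hq'P)))
    by_cases hs : FrobScalar (rbarB b) q'
    · have hv : (⟨q', hq'pr⟩ : Nat.Primes) ∈ Hs := mem_oldH.2 ⟨hq'T, hq'P, hq'2, hs⟩
      exact (hxv _ hv).2.2 _ (Dvd.dvd.mul_right (Dvd.dvd.mul_left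
        (Finset.dvd_prod_of_mem (fun v => xv v 0) hv) _) _) _ hout'
    · have hv : (⟨q', hq'pr⟩ : Nat.Primes) ∈ S0 := mem_oldS.2 ⟨hq'T, hq'P, hq'2, hs⟩
      refine (huS _ hv).2.2 _ (Dvd.dvd.mul_left ?_ _) _ hout'
      rw [← hbe _ hv]
      exact Finset.dvd_prod_of_mem be (hSR hv)
  rcases h2R.alt with ⟨h2P, N0, hN0m, hN0⟩ | ⟨hw2, u2, P12, pt2, pk2⟩
  · refine key S0 uS uS (fun _ => Polynomial.X) (fun _ => (p : ℤ)) (fun _ => 1) β2 N0 f2
      (Finset.filter_subset _ _) (fun v hv => Or.inl hv) (Finset.Subset.refl _) (fun _ _ => rfl)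
      (fun v hv => (huS v hv).1) (fun v hv => (huS v hv).2.1) (fun _ => h2P) hN0m hN0
      (Dvd.intro _ rfl) ?_
    rw [Finset.sum_const, smul_eq_mul, mul_one]
    omega
  · have htS : tP ∉ S0 := fun h => (mem_oldS.1 h).2.2.1 rfl
    have hne : ∀ v ∈ S0, v ≠ tP := fun v hv e => htS (e ▸ hv)
    have h2T : tP ∈ toP T := by
      obtain ⟨M₀, hM₀, -, -⟩ := X.BP.shape
      refine mem_toP'.2 (X.BP.levT 2 Nat.prime_two ?_)
      rw [hM₀]
      exact Dvd.dvd.mul_right (Dvd.dvd.mul_left (by norm_num) _) _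
    refine key (insert tP S0) (fun v => if v = tP then u2 else uS v)
      (fun v => if v = tP then β2 else uS v) (fun v => if v = tP then P12 else Polynomial.X)
      (fun v => if v = tP then pt2 else (p : ℤ)) (fun v => if v = tP then f2 else 1) 1 1 0
      (Finset.insert_subset h2T (Finset.filter_subset _ _))
      (fun v hv => (Finset.mem_insert.1 hv).symm) (Finset.subset_insert _ _)
      (fun v hv => if_neg (hne v hv)) ?_ ?_ (fun h => absurd (Finset.mem_insert_self _ _) h) ?_ ?_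
      ?_ ?_
    · intro v hv
      rcases Finset.mem_insert.1 hv with rfl | hv
      · simp only [if_true]
        exact pk2
      · simp only [if_neg (hne v hv)]
        exact (huS v hv).1
    · intro v hv
      rcases Finset.mem_insert.1 hv with rfl | hv
      · exact hw2
      · exact (huS v hv).2.1
    · rw [Int.cast_one, sub_self]
      exact Gt.annihilator.zero_mem
    · rw [zero_add, pow_one]
      intro h
      have h1 := Int.eq_one_of_dvd_one (by positivity) h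
      have h2 : p = 1 := by exact_mod_cast h1
      exact (Fact.out : p.Prime).one_lt.ne' h2
    · rw [one_mul, Finset.prod_insert htS, if_pos rfl]
      exact Dvd.intro _ rfl
    · rw [Finset.sum_insert htS, if_pos rfl,
        Finset.sum_congr rfl (fun v hv => if_neg (hne v hv)), Finset.sum_const, smul_eq_mul,
        mul_one]
      omega

end Frame

end Fermat.Agent.ML.Hard.Mono
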