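import Fermat.Agent.ML.Hard.Mono.Core

/-!
# ML / Hard / Mono / Mid : `HardMidStmt` from the record at the prime `2`

* `TwoStmt` : existence of `TwoRec` (the prime `2`) in the frame of `MidFStmt` (`q = p` allowed);
* `hardMid_of : TwoStmt → HardMidStmt`.
-/

set_option autoImplicit false
set_option linter.unusedSectionVars false

noncomputable section

open AlgebraicCurve ModularCurve

namespace Fermat.Agent.ML.Hard.Mono

open Matrix Fermat.Agent.RIB Fermat.Agent.ML Fermat.Agent.S56 Fermat.Agent.S56.Gen ExtCitation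
  Fermat.Agent.ML.ESide Fermat.Agent.ML.Lift Fermat.Agent.ML.Raise Fermat.Agent.ML.StepGen
  Fermat.Agent.ML.TWFree
open CFT (decomp)

local notation "Qbar" => AlgebraicClosure ℚ
local notation "GQ" => (AlgebraicClosure ℚ ≃ₐ[ℚ] AlgebraicClosure ℚ)
local notation "M₂" => Matrix (Fin 2) (Fin 2)

/-- **the prime `2`** in the frame of `MidFStmt`. -/
def TwoStmt : Prop :=
  ∀ (W : WeierstrassCurve ℤ) (p : ℕ) [Fact p.Prime] (T : Finset ℕ)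
    (b : Module.Basis (Fin 2) (ZMod p) (TorsW W p)) (L₀ : ℕ) [NeZero L₀] (eps : ℕ → ℤ)
    (eP : GQ → ℤ) (X : LCtx W p T b L₀ eps eP) (t : ℕ) (P : Finset ℕ) (q : ℕ),
    P ⊆ Pfin W (rbarB b) L₀ → q ∈ Pfin W (rbarB b) L₀ → q ∉ P → q ≠ 2 → p ∉ P →
    (2 ∈ Pfin W (rbarB b) L₀ → 2 ∈ P) →
    ∃ f2 : ℕ, ∀ (a m n K : ℕ) (qv : Fin t → Nat.Primes),
    Frm p X.C.hp2 T W.apOfModel (rbarB b) t 0 0 a m n K qv → 1 ≤ a →
    ∀ (Lc Lc' : ℕ) [NeZero Lc] [NeZero Lc'] [NeZero q], Lc = cellLevel L₀ P →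
    ∀ hL : Lc' = Lc * q,
    ∀ G : AddSubgroup (JZero (lvl Lc (extP qv) t)),
      IsCell p T W.apOfModel (rbarB b) eps eP Lc qv a P G → G ≠ ⊥ →
    ∀ B : Module.Basis (Fin 2) (ZMod (p ^ (K + 1))) (TorsW W (p ^ (K + 1))),
      TopCtx W p b K B (lvl Lc' (extP qv) t)
        (cellV p (↑(cutS T qv) : Set ℕ) W.apOfModel (lvl Lc' (extP qv) t) (K + 1)) →
    ∀ (R : Type) [CommRing R] [IsLocalRing R] [Finite R] [Algebra (ZMod (p ^ (K + 1))) R]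
      [Module R ↥(cellV p (↑(cutS T qv) : Set ℕ) W.apOfModel (lvl Lc' (extP qv) t) (K + 1))]
      (πE : R →ₐ[ZMod (p ^ (K + 1))] ZMod (p ^ (K + 1))) (ρ : GQ →* M₂ R)
      (Φ : M₂ R →ₐ[R] Module.End R
        ↥(cellV p (↑(cutS T qv) : Set ℕ) W.apOfModel (lvl Lc' (extP qv) t) (K + 1))),
      Fermat.Agent.ML.Rho.IsRhoK (lvl Lc' (extP qv) t) (p ^ (K + 1))
        (cellV p (↑(cutS T qv) : Set ℕ) W.apOfModel (lvl Lc' (extP qv) t) (K + 1))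
        (rEB B) πE ρ Φ →
    ∀ Gt : Submodule R
        ↥(cellV p (↑(cutS T qv) : Set ℕ) W.apOfModel (lvl Lc' (extP qv) t) (K + 1)),
      (∀ x, x ∈ Gt ↔ ∃ v ∈ G, upE (lvl_mul_q hL qv) 0 v = (x : JZero (lvl Lc' (extP qv) t))) →
      ∃ β2 : R, TwoRec p (rbarB b) (eps 2) P
        (cellV p (↑(cutS T qv) : Set ℕ) W.apOfModel (lvl Lc' (extP qv) t) (K + 1))
        (pi0 πE) ρ Gt f2 β2

/-- **the middle block at a hard prime.** -/
theorem hardMid_of (h2 : TwoStmt) : HardMidStmt := by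
  intro W p _ T b L₀ _ eps eP X t P q hP hq hqP hq2 hqp hsc hpP h2P _
  obtain ⟨f2, hf2⟩ := h2 W p T b L₀ eps eP X t P q hP hq hqP hq2 hpP h2P
  refine ⟨f2 + (oldH T P (rbarB b)).card + (f2 + (oldS T P (rbarB b)).card), ?_⟩
  intro a m n K qv hF ha Lc Lc' _ _ _ hLc hL G hG hG0 B C _ R _ _ _ _ _ πE ρ Φ H Gt hGt
  obtain ⟨β2, h2R⟩ := hf2 a m n K qv hF ha Lc Lc' hLc hL G hG hG0 B C R πE ρ Φ H Gt hGt
  obtain ⟨yn, c, Pc0, hyn, hwq, hsq, hc, hxc, hemb, hout⟩ :=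
    exists_new_hard X hP hq hqP hq2 hF hLc hL hG C H Gt hGt hqp hsc
  have hGV := Frame.hGV X hP hq hqP hq2 hF hLc hL hG
    (V := cellV p (↑(cutS T qv) : Set ℕ) W.apOfModel (lvl Lc' (extP qv) t) (K + 1))
    (fun _ => Iff.rfl)
  have hgn := genNew_of X hP hq hqP hq2 hF hLc hL hG C H Gt hGt hpP hqp hG0 hGV 3 yn hwq hsq
  obtain ⟨Hr, σ, i1, i2, D, val, pt, β', Pc, Pβ, hM⟩ :=
    midData_of X hP hq hqP hq2 hF hLc hL hG C H Gt hGt hpP h2R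
      (cellU p (↑(cutS T qv) : Set ℕ) W.apOfModel (lvl Lc (extP qv) t) qv a)
      (cellK p (↑(cutS T qv) : Set ℕ) W.apOfModel qv a (lvl_mul_q hL qv))
      3 yn hyn hgn c Pc0 hc hxc (eps q)
      (fun v hv hvV hcv k => hemb v hv.1.1 ⟨a, hv.1.2⟩ hvV hcv k)
      (fun G' hle _ => hout _ fun x hx =>
        ⟨cellU_le_cellV qv (hF.hK.trans (Nat.le_succ K)) (hle hx).1, ⟨a, (hle hx).1.1.2⟩,
          (hle hx).2⟩)
  exact ⟨eps q, Hr, σ, i1, i2, D, val, pt, c, β', Pc, Pβ, hM⟩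

end Fermat.Agent.ML.Hard.Mono
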