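import Fermat.Agent.ML.Hard.MidSpec
import Fermat.Agent.ML.Hard.Mid.Abs
import Fermat.Agent.ML.Hard.LocK
import Fermat.Agent.ML.Hard.LocOut
import Fermat.Agent.ML.Raise.SoftTop
import Fermat.Agent.ML.Lift.Inst.GenFrame
import Fermat.Agent.ML.Lift.Soft.MidLoc
import Fermat.Agent.ML.Main.CellMk

/-!
# ML / Hard / Mono / Pkg : the per-prime packages of the middle block in the F-form, in the frame of `MidFStmt`

* `phi_mem` : a Galois-stable `R`-submodule is `Φ`-stable;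
* `pkgOne_soft` : `PkgOne` at a raised soft prime;   `pkgHard_old` : `PkgHard` at a raised hard prime;
* `TwoRec` : what the middle block needs at the prime `2`.
-/

set_option autoImplicit false
set_option linter.unusedSectionVars false

noncomputable section

open AlgebraicCurve ModularCurve

namespace Fermat.Agent.ML.Hard.Mono

open Matrix Fermat.Agent.RIB Fermat.Agent.ML Fermat.Agent.S56 Fermat.Agent.S56.Gen ExtCitation
  Fermat.Agent.ML.ESide Fermat.Agent.ML.Lift Fermat.Agent.ML.Raise Fermat.Agent.ML.StepGen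
  Fermat.Agent.ML.TWFree
open CFT (decomp)

local notation "Qbar" => AlgebraicClosure ℚ
local notation "GQ" => (AlgebraicClosure ℚ ≃ₐ[ℚ] AlgebraicClosure ℚ)
local notation "M₂" => Matrix (Fin 2) (Fin 2)

section RhoK

variable {N m : ℕ} [NeZero N] [NeZero m] {X : AddSubgroup (JZero N)} {rE : GQ →* M₂ (ZMod m)}
  {R : Type} [CommRing R] [Algebra (ZMod m) R] [Module R ↥X] {πE : R →ₐ[ZMod m] ZMod m}
  {ρ : GQ →* M₂ R} {Φ : M₂ R →ₐ[R] Module.End R ↥X}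

/-- a Galois-stable `R`-submodule is `Φ`-stable. -/
theorem phi_mem (H : Rho.IsRhoK N m X rE πE ρ Φ) (hadj : Algebra.adjoin R (Set.range ρ) = ⊤)
    (Y : Submodule R ↥X)
    (hYG : ∀ (g : GQ), ∀ y ∈ Y, ∀ y' : ↥X, (y' : JZero N) = g • (y : JZero N) → y' ∈ Y)
    (M : M₂ R) : ∀ y ∈ Y, Φ M y ∈ Y := by
  have hM : M ∈ Algebra.adjoin R (Set.range ρ) := hadj ▸ Algebra.mem_top
  induction hM using Algebra.adjoin_induction with
  | mem M hM =>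
    obtain ⟨g, rfl⟩ := hM
    intro y hy
    exact hYG g y hy _ (H.act g y)
  | algebraMap r =>
    intro y hy
    rw [AlgHom.commutes]
    exact Y.smul_mem r hy
  | add M M' _ _ h h' =>
    intro y hy
    rw [map_add]
    exact Y.add_mem (h y hy) (h' y hy)
  | mul M M' _ _ h h' =>
    intro y hy
    rw [map_mul]
    exact h _ (h' y hy)

/-- `PkgOne` at a raised soft prime : variable and multiplier `b_v`, auxiliary value `p`. -/
theorem pkgOne_soft {p : ℕ} [Fact p.Prime] {π0 : R →+* ZMod p} {v : Nat.Primes} {ε : ℤ} {φ : GQ}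
    {bv : R} (S : SoftAt ρ (Rho.PhiJ X rE πE ρ Φ) π0 v ε φ bv) (H : Rho.IsRhoK N m X rE πE ρ Φ)
    (Y : Submodule R ↥X)
    (hYG : ∀ (g : GQ), ∀ y ∈ Y, ∀ y' : ↥X, (y' : JZero N) = g • (y : JZero N) → y' ∈ Y)
    {YS : Set (JZero N)} (hYS : ∀ y ∈ Y, (y : JZero N) ∈ YS) (hst : LocSt (v : ℕ) ε YS) :
    PkgOne p π0 ρ Y v bv bv Polynomial.X (p : ℤ) 1 where
  pi0_u := S.pi0_b
  strict := fun I hb => S.strict_raised_sub H Y hYG hYS hst I hb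
  pol := by
    rw [Polynomial.aeval_X, sub_self]
    exact Y.annihilator.zero_mem
  hpt := dvd_rfl
  hN := by
    rw [Polynomial.eval_X]
    have := mid_not_pow_succ_dvd (Fact.out : p.Prime) 1
    rwa [pow_one] at this

end RhoK

/-- `v ‖ N`, `v` odd, `4 ∣ N`. -/
theorem lev_split {N v : ℕ} (hv : v.Prime) (hv2 : v ≠ 2) (hd : v ∣ N) (hsq : ¬ v ^ 2 ∣ N)
    (h4 : 4 ∣ N) : ∃ M : ℕ, N = M * v ∧ ¬ v ∣ M ∧ (4 ∣ M ∨ 9 ∣ M) := by
  obtain ⟨M, rfl⟩ := hd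
  refine ⟨M, mul_comm _ _, fun ⟨k, hk⟩ => hsq ⟨k, by rw [hk]; ring⟩, Or.inl ?_⟩
  have hc : Nat.Coprime 4 v := by
    have : Nat.Coprime (2 ^ 2) v :=
      Nat.Coprime.pow_left 2 ((Nat.coprime_primes Nat.prime_two hv).2 (Ne.symm hv2))
    simpa using this
  exact hc.dvd_of_dvd_mul_left h4

section Top

variable {W : WeierstrassCurve ℤ} {p : ℕ} [Fact p.Prime]
  {b : Module.Basis (Fin 2) (ZMod p) (TorsW W p)} {K : ℕ}
  {B : Module.Basis (Fin 2) (ZMod (p ^ (K + 1))) (TorsW W (p ^ (K + 1)))} {N : ℕ} [NeZero N]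
  {X : AddSubgroup (JZero N)} {R : Type} [CommRing R] [Algebra (ZMod (p ^ (K + 1))) R]
  [Module R ↥X] {πE : R →ₐ[ZMod (p ^ (K + 1))] ZMod (p ^ (K + 1))} {ρ : GQ →* M₂ R}
  {Φ : M₂ R →ₐ[R] Module.End R ↥X}
  (C : TopCtx W p b K B N X) (H : Rho.IsRhoK N (p ^ (K + 1)) X (rEB B) πE ρ Φ)

include C H in
/-- `PkgHard` at a raised hard prime. -/
theorem pkgHard_old [Finite R] (Y : Submodule R ↥X) (hY : ∀ (M : M₂ R), ∀ y ∈ Y, Φ M y ∈ Y)
    {S : Set (JZero N)} (hYS : ∀ y ∈ Y, ((y : ↥X) : JZero N) ∈ S)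
    (v : Nat.Primes) (hvp : (v : ℕ) ≠ p) (hur : ∀ σ ∈ inert v, rbarB b σ = 1) {ε : ℤ}
    (hε : ε * ε = 1) (hst : LocSt (v : ℕ) ε S) (hun : LocUnip (v : ℕ) S) {φ τ : GQ}
    (hφ : (primeLocalPlace v).IsFrobeniusAt φ (v : ℕ)) (hτ : τ ∈ inert v)
    (hgen : ∀ σ ∈ inert v, ∃ n : ℕ, ρ σ = ρ τ ^ n)
    (hsc : rbarB b φ = ((ε : ℤ) : ZMod p) • (1 : M₂ (ZMod p))) {D : ℤ}
    (hD : (((v : ℕ) : ℤ)) - 1 = (p : ℤ) * D) :
    PkgHard p (pi0 πE) ρ Y v (locVar (ρ φ) (ρ τ - 1) (ε : R)) D where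
  pi0_x := fun j => pi0_locVar C H hε hsc (hur τ hτ) j
  scr := scroll_of_cell H Y hY hYS _ le_rfl hε hst hun (liesOverPrime_primeLocalPlace v) hφ hτ
    (C.det_frob H v.2 hvp (liesOverPrime_primeLocalPlace v) hφ)
    (C.det_inertia H v.2 hvp (liesOverPrime_primeLocalPlace v) hτ) hD
  strict := fun I hI => strict_raised_hard C H Y hY hYS v hvp hur hε hst hun hφ hτ hgen I hI

end Top

/-- what the middle block needs at the prime `2`. -/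
structure TwoRec (p : ℕ) [Fact p.Prime] (rbar0 : GQ →* M₂ (ZMod p)) (ε2 : ℤ) (P : Finset ℕ)
    {N' : ℕ} [NeZero N'] (V : AddSubgroup (JZero N')) {R : Type} [CommRing R] [Module R ↥V]
    (π0 : R →+* ZMod p) (ρ : GQ →* M₂ R) (Gt : Submodule R ↥V) (f2 : ℕ) (β2 : R) : Prop where
  /-- no variable at `2`, or one variable of weight `1` -/
  alt : (2 ∉ P ∧ ∃ N0 : ℤ, β2 - (N0 : R) ∈ Gt.annihilator ∧ ¬ (p : ℤ) ^ (f2 + 1) ∣ N0) ∨
    (Nat.card ↥(B1loc (adRep (mapK (kM p) rbar0)) (⟨2, Nat.prime_two⟩ : Nat.Primes)) *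
        Nat.card (kM p) ^ 1 ≤ Nat.card (kM p) ^ 3 ∧
      ∃ (u : R) (P1 : Polynomial ℤ) (pt : ℤ),
        PkgOne p π0 ρ Gt (⟨2, Nat.prime_two⟩ : Nat.Primes) u β2 P1 pt f2)
  /-- the fields of the new cell at `2` -/
  out : ∀ β' : R, β2 ∣ β' → ∀ G' : Set (JZero N'),
    (∀ x ∈ G', ∃ x₁ : ↥V, ((β' • x₁ : ↥V) : JZero N') = x) →
    (2 ∈ P → LocSt 2 ε2 G' ∧ LocUnip 2 G') ∧ (2 ∉ P → ¬ Ram rbar0 2 → LocUr 2 G') ∧
      (Ram rbar0 2 → LocUnip 2 G')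

/-! ### the frame of `MidFStmt` -/

section Frame

variable {W : WeierstrassCurve ℤ} {p : ℕ} [Fact p.Prime] {T : Finset ℕ}
  {b : Module.Basis (Fin 2) (ZMod p) (TorsW W p)} {L₀ : ℕ} [NeZero L₀] {eps : ℕ → ℤ}
  {eP : GQ → ℤ} (X : LCtx W p T b L₀ eps eP) {P : Finset ℕ} {q : ℕ}
  (hP : P ⊆ Pfin W (rbarB b) L₀) (hq : q ∈ Pfin W (rbarB b) L₀) (hqP : q ∉ P) (hq2 : q ≠ 2)
  {t a m n K : ℕ} {qv : Fin t → Nat.Primes}
  (hF : Frm p X.C.hp2 T W.apOfModel (rbarB b) t 0 0 a m n K qv)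
  {Lc Lc' : ℕ} [NeZero Lc] [NeZero Lc'] [NeZero q] (hLc : Lc = cellLevel L₀ P) (hL : Lc' = Lc * q)

include X hP hq hqP hq2 hF hLc hL in
/-- the shape of the upper level at an odd prime of `insert q P`. -/
theorem lev_upper {v : ℕ} (hv : v ∈ insert q P) (hv2 : v ≠ 2) :
    ¬ v ^ 2 ∣ lvl Lc' (extP qv) t ∧
      ∃ M : ℕ, lvl Lc' (extP qv) t = M * v ∧ ¬ v ∣ M ∧ (4 ∣ M ∨ 9 ∣ M) := by
  have e : Lc' = cellLevel L₀ (insert q P) := by rw [hL, hLc, cellLevel_insert L₀ hqP hq2]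
  have hP' : insert q P ⊆ Pfin W (rbarB b) L₀ := Finset.insert_subset hq hP
  have hnotT := (Frame.mtw' X hP hq hqP hq2 hF hLc hL).notT
  have hvpr := X.prime_of_mem_Pfin (hP' hv)
  have hvT : v ∈ T := X.hbadT v hvpr (X.dvd_of_mem_Pfin (hP' hv))
  have hsq : ¬ v ^ 2 ∣ lvl Lc' (extP qv) t := e ▸ X.cellMk_not_sq_dvd_lvl hP' hnotT hvpr hvT hv2
  have hd : v ∣ lvl Lc' (extP qv) t :=
    e ▸ (X.cellMk_dvd_lvl_iff hP' hnotT hvpr hvT hv2).2 (Or.inr hv)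
  have h4 : 4 ∣ lvl Lc' (extP qv) t :=
    (e ▸ four_dvd_cellLevel X (insert q P) : 4 ∣ Lc').trans (dvd_lvl _ _ _)
  exact ⟨hsq, lev_split hvpr hv2 hd hsq h4⟩

variable {G : AddSubgroup (JZero (lvl Lc (extP qv) t))}
  (hG : IsCell p T W.apOfModel (rbarB b) eps eP Lc qv a P G)
  {V : AddSubgroup (JZero (lvl Lc' (extP qv) t))}
  {B : Module.Basis (Fin 2) (ZMod (p ^ (K + 1))) (TorsW W (p ^ (K + 1)))}
  (C : TopCtx W p b K B (lvl Lc' (extP qv) t) V)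
  {R : Type} [CommRing R] [IsLocalRing R] [Finite R] [Algebra (ZMod (p ^ (K + 1))) R]
  [Module R ↥V]
  {πE : R →ₐ[ZMod (p ^ (K + 1))] ZMod (p ^ (K + 1))} {ρ : GQ →* M₂ R}
  {Φ : M₂ R →ₐ[R] Module.End R ↥V}
  (H : Rho.IsRhoK (lvl Lc' (extP qv) t) (p ^ (K + 1)) V (rEB B) πE ρ Φ)
  (Gt : Submodule R ↥V)
  (hGt : ∀ x : ↥V, x ∈ Gt ↔
    ∃ v ∈ G, upE (lvl_mul_q hL qv) 0 v = (x : JZero (lvl Lc' (extP qv) t)))

include X hP hq hqP hq2 hF hLc hG C H hGt in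
/-- a soft prime raised before. -/
theorem exists_old_soft (hpP : p ∉ P) (v : Nat.Primes) (hvP : (v : ℕ) ∈ P) (hv2 : (v : ℕ) ≠ 2)
    (hns : ¬ FrobScalar (rbarB b) (v : ℕ)) :
    ∃ u : R, PkgOne p (pi0 πE) ρ Gt v u u Polynomial.X (p : ℤ) 1 ∧
      Nat.card ↥(B1loc (adRep (mapK (kM p) (rbarB b))) v) * Nat.card (kM p) ^ 1 ≤
        Nat.card (kM p) ^ 3 ∧
      ∀ β' : R, u ∣ β' → ∀ G' : Set (JZero (lvl Lc' (extP qv) t)),
        (∀ x ∈ G', ∃ x₁ : ↥V, ((β' • x₁ : ↥V) : JZero (lvl Lc' (extP qv) t)) = x) →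
        LocSt (v : ℕ) (eps v) G' ∧ LocUnip (v : ℕ) G' := by
  have hvp : (v : ℕ) ≠ p := fun e => hpP (e ▸ hvP)
  have hvF := hP hvP
  have hA := liesOverPrime_primeLocalPlace v
  have hram := X.not_ram_of_mem_Pfin hvF hvp
  obtain ⟨φ, hφ⟩ := S54.exists_isFrobeniusAt_of_liesOverPrime v.2 _ hA
  have hε : eps v * eps v = 1 := by
    rcases (X.sgn v v.2 hvp (X.dvd_of_mem_Pfin hvF)).1 with e | e <;> rw [e] <;> norm_num
  have hns' := frobNonScalar_of_not v.2 hram hns _ hA φ hφ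
  obtain ⟨bv, S⟩ := exists_softAt_top X.C C H v hvp
    (lev_upper X hP hq hqP hq2 hF hLc hL (Finset.mem_insert_of_mem hvP) hv2).1 hram hε
    (FinGen.locSt_EM B X.sgn v.2 hvp (X.dvd_of_mem_Pfin hvF)) hφ hns'
  refine ⟨bv, pkgOne_soft S H Gt (Frame.hYG hL hG Gt hGt)
    (YS := upE (lvl_mul_q hL qv) 0 '' (G : Set (JZero (lvl Lc (extP qv) t))))
    (fun y hy => (hGt y).1 hy)
    ((hG.st v hvP hvp).1.image _ (fun g x => upE_smul _ 0 g x)),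
    X.C.weight_one v (fun σ hσ => unram_of_not_ram hram _ hA σ hσ) hφ hns', ?_⟩
  intro β' hβ G' hG'
  exact mid_out_old H S hβ (U := Set.univ) (fun _ _ _ => Set.mem_univ _) (fun x hx => by
    obtain ⟨x₁, h⟩ := hG' x hx
    exact ⟨x₁, Set.mem_univ _, h⟩)

include X hP hq hqP hq2 hF hLc hG C H hGt in
/-- a hard prime raised before. -/
theorem exists_old_hard (hpP : p ∉ P) (v : Nat.Primes) (hvP : (v : ℕ) ∈ P) (hv2 : (v : ℕ) ≠ 2)
    (hs : FrobScalar (rbarB b) (v : ℕ)) :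
    ∃ (x : Fin 6 → R) (D : ℤ), PkgHard p (pi0 πE) ρ Gt v x D ∧
      Nat.card ↥(B1loc (adRep (mapK (kM p) (rbarB b))) v) * Nat.card (kM p) ^ 3 ≤
        Nat.card (kM p) ^ 3 ∧
      ∀ β' : R, x 0 ∣ β' → ∀ G' : Set (JZero (lvl Lc' (extP qv) t)),
        (∀ x ∈ G', ∃ x₁ : ↥V, ((β' • x₁ : ↥V) : JZero (lvl Lc' (extP qv) t)) = x) →
        LocSt (v : ℕ) (eps v) G' ∧ LocUnip (v : ℕ) G' := by
  have hvp : (v : ℕ) ≠ p := fun e => hpP (e ▸ hvP)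
  have hvF := hP hvP
  have hA := liesOverPrime_primeLocalPlace v
  have hram := X.not_ram_of_mem_Pfin hvF hvp
  have hur : ∀ σ ∈ inert v, rbarB b σ = 1 := fun σ hσ => unram_of_not_ram hram _ hA σ hσ
  obtain ⟨φ, hφ⟩ := S54.exists_isFrobeniusAt_of_liesOverPrime v.2 _ hA
  have hε : eps v * eps v = 1 := by
    rcases (X.sgn v v.2 hvp (X.dvd_of_mem_Pfin hvF)).1 with e | e <;> rw [e] <;> norm_num
  obtain ⟨hsc, D, hD⟩ := hard_facts X v.2 hvp (X.dvd_of_mem_Pfin hvF) hs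
  obtain ⟨⟨τ, hτ, hgen⟩, -, -⟩ := exists_tame_data C H v.2 hvp hA hur
  obtain ⟨-, M, hM, hvM, h49⟩ :=
    lev_upper X hP hq hqP hq2 hF hLc hL (Finset.mem_insert_of_mem hvP) hv2
  have DA : HardAt b (lvl Lc' (extP qv) t) (v : ℕ) (eps v) := hardAt_of X hvF hvp hs hM hvM h49
  have hYG := Frame.hYG hL hG Gt hGt
  have hY := phi_mem H (X.C.adjoin_range_rho' (C.lift H)) Gt hYG
  refine ⟨locVar (ρ φ) (ρ τ - 1) ((eps v : ℤ) : R), D, pkgHard_old C H Gt hY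
    (S := upE (lvl_mul_q hL qv) 0 '' (G : Set (JZero (lvl Lc (extP qv) t))))
    (fun y hy => (hGt y).1 hy) v hvp hur hε
    ((hG.st v hvP hvp).1.image _ (fun g x => upE_smul _ 0 g x))
    ((hG.st v hvP hvp).2.image _ (fun g x => upE_smul _ 0 g x)) hφ hτ hgen (hsc _ hA φ hφ) hD,
    X.C.weight_three v hur hφ (hsc _ hA φ hφ), ?_⟩
  intro β' hβ G' hG'
  refine ⟨(locSt_smul_hard C H DA hA hτ φ 0 (by norm_num) β' hβ).mono fun x hx => hG' x hx,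
    (locUnip_top C H DA).mono fun x hx => ?_⟩
  obtain ⟨x₁, rfl⟩ := hG' x hx
  exact (β' • x₁).2

open MvPolynomial in
include X hP hq hqP hq2 hF hLc hG C H hGt in
/-- the NEW hard prime. -/
theorem exists_new_hard (hqp : q ≠ p) (hs : FrobScalar (rbarB b) q) :
    ∃ (yn : Fin 3 → R) (c : R) (Pc0 : MvPolynomial (Fin 3) ℤ), (∀ j, pi0 πE (yn j) = 0) ∧
      Nat.card ↥(B1loc (adRep (mapK (kM p) (rbarB b)))
          (⟨q, X.prime_of_mem_Pfin hq⟩ : Nat.Primes)) * Nat.card (kM p) ^ 3 ≤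
        Nat.card (kM p) ^ 3 ∧
      (∀ I : Ideal R, (∀ j, yn j ∈ I) → ∃ M : M₂ R, IsUnit (M.map (pi0 πE)) ∧
        ∀ σ ∈ decomp (⟨q, X.prime_of_mem_Pfin hq⟩ : Nat.Primes),
          ConjConst ℤ (Gt.annihilator ⊔ I) M (ρ σ)) ∧
      c - aeval yn Pc0 ∈ Gt.annihilator ∧ aeval (fun _ : Fin 3 => (0 : ℤ)) Pc0 = 0 ∧
      (∀ v ∈ thetaPart (lvl Lc (extP qv) t) p (↑(cutS T qv) : Set ℕ) W.apOfModel,
        (∃ k : ℕ, p ^ k • v = 0) → ∀ hv : upE (lvl_mul_q hL qv) 0 v ∈ V,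
        c • (⟨upE (lvl_mul_q hL qv) 0 v, hv⟩ : ↥V) = 0 →
        ∀ k, dnE (lvl_mul_q hL qv) k
          (upE (lvl_mul_q hL qv) 0 v - eps q • upE (lvl_mul_q hL qv) 1 v) = 0) ∧
      ∀ G' : Set (JZero (lvl Lc' (extP qv) t)),
        (∀ x ∈ G', x ∈ V ∧ (∃ k : ℕ, p ^ k • x = 0) ∧ ∀ c, dnE (lvl_mul_q hL qv) c x = 0) →
        LocSt q (eps q) G' ∧ LocUnip q G' := by
  have hp : p.Prime := Fact.out
  have hqpr := X.prime_of_mem_Pfin hq
  set v : Nat.Primes := ⟨q, hqpr⟩ with hv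
  have hA : (primeLocalPlace v).LiesOverPrime q := liesOverPrime_primeLocalPlace v
  have hram := X.not_ram_of_mem_Pfin hq hqp
  have hur : ∀ σ ∈ inert v, rbarB b σ = 1 := fun σ hσ => unram_of_not_ram hram _ hA σ hσ
  obtain ⟨φ, hφ⟩ := S54.exists_isFrobeniusAt_of_liesOverPrime hqpr _ hA
  have hε : eps q * eps q = 1 := by
    rcases (X.sgn q hqpr hqp (X.dvd_of_mem_Pfin hq)).1 with e | e <;> rw [e] <;> norm_num
  have hε' : ((eps q : ℤ) : R) * ((eps q : ℤ) : R) = 1 := by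
    exact_mod_cast congrArg (Int.cast : ℤ → R) hε
  obtain ⟨hsc, D, hD⟩ := hard_facts X hqpr hqp (X.dvd_of_mem_Pfin hq) hs
  obtain ⟨⟨τ, hτ, hgen⟩, -, -⟩ := exists_tame_data C H hqpr hqp hA hur
  obtain ⟨-, M, hM, hvM, h49⟩ :=
    lev_upper X hP hq hqP hq2 hF hLc hL (Finset.mem_insert_self q P) hq2
  have DA : HardAt b (lvl Lc' (extP qv) t) q (eps q) := hardAt_of X hq hqp hs hM hvM h49
  have hYG := Frame.hYG hL hG Gt hGt
  have hY := phi_mem H (X.C.adjoin_range_rho' (C.lift H)) Gt hYG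
  have hqT : q ∈ T := X.hbadT q hqpr (X.dvd_of_mem_Pfin hq)
  have hdet := C.det_frob H hqpr hqp hA hφ
  have hqN := Frame.hqN X hP hq hqP hq2 hF hLc
  set y : Fin 6 → R := locVar (ρ φ) (ρ τ - 1) ((eps q : ℤ) : R) with hy
  have hy0 : ∀ j, pi0 πE (y j) = 0 := fun j => pi0_locVar C H hε (hsc _ hA φ hφ) (hur τ hτ) j
  have hu4 : IsUnit (1 + y 4) := isUnit_one_add_of_map (pi0 πE) (hy0 4)
  refine ⟨![y 3, y 4, y 5], (((eps q : ℤ) : R) * (ρ φ).trace - ((q : R) + 1)) * (1 + y 4),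
    MvPolynomial.X 1 * (MvPolynomial.X 1 - MvPolynomial.C ((q : ℤ) - 1)) -
      MvPolynomial.X 0 * MvPolynomial.X 2, ?_, X.C.weight_three v hur hφ (hsc _ hA φ hφ),
    ?_, ?_, ?_, ?_, ?_⟩
  · intro j
    fin_cases j
    · exact hy0 3
    · exact hy0 4
    · exact hy0 5
  · intro I hI
    exact strict_unraised_hard C H Gt hY
      (S := upE (lvl_mul_q hL qv) 0 '' (G : Set (JZero (lvl Lc (extP qv) t))))
      (fun y hy => (hGt y).1 hy) v hqp hur hε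
      ((hG.ur q hqpr hqT hqP hqp hram).image _ (fun g x => upE_smul _ 0 g x)) hφ hτ hgen I
      (hI 0) (hI 1) (hI 2)
  · have e : (((eps q : ℤ) : R) * (ρ φ).trace - ((q : R) + 1)) * (1 + y 4) =
        aeval ![y 3, y 4, y 5] (MvPolynomial.X 1 * (MvPolynomial.X 1 -
          MvPolynomial.C ((q : ℤ) - 1)) - MvPolynomial.X 0 * MvPolynomial.X 2 :
          MvPolynomial (Fin 3) ℤ) := by
      rw [hy, unr_rel (ρ φ) (ρ τ - 1) (q : R) ((eps q : ℤ) : R) hε' hdet]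
      simp
    rw [e, sub_self]
    exact Gt.annihilator.zero_mem
  · simp
  · intro w hw hwk hwV hc k
    have h1 := (smul_ctilde_iff (ρ φ) (ρ τ - 1) (q : R) ((eps q : ℤ) : R) hε' hu4 _).1 hc
    have h2 := mid_frob (v := v) (ε := eps q) H hdet _ h1
    have h3 : φ • w + q • φ⁻¹ • w = (eps q * ((q : ℤ) + 1)) • w := by
      refine sub_eq_zero.1 (Frame.hinj X hP hq hqP hq2 hF hLc hL _ ?_ ?_)
      · exact AddSubgroup.sub_mem _ (AddSubgroup.add_mem _ (smul_mem_thetaPart φ hw)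
          (AddSubgroup.nsmul_mem _ (smul_mem_thetaPart φ⁻¹ hw) q)) (AddSubgroup.zsmul_mem _ hw _)
      · rw [map_sub, map_add, map_nsmul, map_zsmul, upE_smul, upE_smul, sub_eq_zero]
        exact h2
    exact dnE_embE_of_frob hqpr hqN hp hqp hε (lvl_mul_q hL qv) hA hφ hwk h3 k
  · intro G' hG'
    refine ⟨locSt_new_hard C H DA G' (fun x hx => (hG' x hx).1) fun x hx A' hA' φ' hφ' =>
      mid_rel hqpr hp hqp hqN (lvl_mul_q hL qv) hA' hφ' (hG' x hx).2.1 (hG' x hx).2.2,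
      (locUnip_top C H DA).mono fun x hx => (hG' x hx).1⟩

end Frame

end Fermat.Agent.ML.Hard.Mono
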